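import Fermat.Prelude.Def_GaloisRep_Residual
import Fermat.Prelude.Def_FLTPrelim_ModularRep
import Fermat.Agent.Frobenius.Existence
import Mathlib.LinearAlgebra.Charpoly.BaseChange
import Mathlib.LinearAlgebra.Matrix.Charpoly.Coeff
import Mathlib.Algebra.Algebra.ZMod

/-!
# From congruences at almost all primes to congruences at all good primes

A weight-2 eigenform of level `M` congruent to the curve `W` modulo a maximal ideal over `p`
outside a finite set of primes is congruent to it at every good prime `ℓ ∤ M`, `ℓ ≠ p`.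
The existence of residual representations, the density of Frobenius elements and the characteristic
polynomial of Frobenius on `E[p]` enter as the predicates `ResidualAttachment`, `FrobeniusDensity`
and `EllipticFrobenius`.
-/

set_option autoImplicit false

noncomputable section

open Polynomial WeierstrassCurve WeierstrassCurve.Affine WeierstrassCurve.Affine.Point

namespace Fermat.Agent.LevelLowering

local notation "ℚbar" => AlgebraicClosure ℚ
local notation "Γℚ" => AlgebraicClosure ℚ ≃ₐ[ℚ] AlgebraicClosure ℚ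

/-- `W` is congruent to an eigenform of level `M` at all but finitely many primes. -/
def CofiniteResModular (W : WeierstrassCurve ℤ) (p M : ℕ) : Prop :=
  ∃ (f : CuspForm (CongruenceSubgroup.Gamma0 M) 2) (𝔪 : Ideal (integralClosure ℤ ℂ)),
    f.IsNormalizedEigenform ∧ 𝔪.IsMaximal ∧ (p : integralClosure ℤ ℂ) ∈ 𝔪 ∧
    ∃ S : Finset ℕ, ∀ ℓ : ℕ, ℓ.Prime → ℓ ∉ S →
      ∃ a : integralClosure ℤ ℂ, (a : ℂ) = ModularFormClass.qCoeff f ℓ ∧
        a - ((W.apOfModel ℓ : ℤ) : integralClosure ℤ ℂ) ∈ 𝔪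

/-- Residual representations are attached to eigenforms. -/
def ResidualAttachment : Prop :=
  ∀ {N : ℕ} {g : CuspForm (CongruenceSubgroup.Gamma0 N) 2}, g.IsNormalizedEigenform →
    ∀ {p : ℕ}, p.Prime → ∀ {k : Type} [Field k] [CharP k p] (φ : integralClosure ℤ ℂ →+* k),
      ∃ ρ : ResidualGaloisRep k, ρ.IsAttachedTo g φ ∧
        ∀ ℓ : ℕ, ℓ.Prime → ¬ ℓ ∣ N * p → ρ.IsUnramifiedAt ℓ

/-- Frobenius density, in the form with powers. -/
def FrobeniusDensity : Prop :=
  ∀ L : IntermediateField ℚ ℚbar, FiniteDimensional ℚ L → ∀ (σ : Γℚ) (S : Finset ℕ),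
    ∃ ℓ : ℕ, ℓ.Prime ∧ ℓ ∉ S ∧ ∃ A : ValuationSubring ℚbar, A.LiesOverPrime ℓ ∧
      ∃ τ : Γℚ, A.IsFrobeniusAt τ ℓ ∧ ∃ j : ℕ, ∀ x ∈ L, (τ ^ j) x = σ x

/-- The characteristic polynomial of Frobenius on the `p`-torsion of `W`. -/
def EllipticFrobenius (W : WeierstrassCurve ℤ) (p : ℕ) [Fact p.Prime] : Prop :=
  ∀ (hcard : Nat.card (Submodule.torsionBy ℤ
      ((W.map (Int.castRingHom ℚ))⁄(AlgebraicClosure ℚ)).Point p) = p ^ 2)
    (hker : GaloisFactorsThroughFiniteLevel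
      (galoisRepModuleEnd (K := AlgebraicClosure ℚ) ℚ (W.map (Int.castRingHom ℚ)) p)),
    ∀ ℓ : ℕ, ℓ.Prime → W.IsGoodPrimeFor ℓ → ℓ ≠ p →
      ∀ A : ValuationSubring ℚbar, A.LiesOverPrime ℓ → ∀ σ : Γℚ, A.IsFrobeniusAt σ ℓ →
        LinearMap.charpoly
            (((W.map (Int.castRingHom ℚ)).residualGaloisRepOf p hcard hker).ρ σ) =
          X ^ 2 - C ((W.apOfModel ℓ : ℤ) : ZMod p) * X + C (ℓ : ZMod p)

section Power

variable {k : Type} [Field k]

theorem trace_pow_eq_of_charpoly_eq {A B : Matrix (Fin 2) (Fin 2) k}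
    (ht : A.trace = B.trace) (hd : A.det = B.det) (j : ℕ) : (A ^ j).trace = (B ^ j).trace := by
  have key : ∀ (C : Matrix (Fin 2) (Fin 2) k) (n : ℕ),
      (C ^ (n + 2)).trace = C.trace * (C ^ (n + 1)).trace - C.det * (C ^ n).trace := by
    intro C n
    have h := Matrix.aeval_self_charpoly C
    rw [Matrix.charpoly_fin_two] at h
    simp only [map_add, map_sub, map_mul, aeval_X_pow, aeval_C, aeval_X,
      Algebra.algebraMap_eq_smul_one, smul_mul_assoc, one_mul] at h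
    have h2 : C ^ 2 = C.trace • C - C.det • (1 : Matrix (Fin 2) (Fin 2) k) := by
      linear_combination (norm := abel) h
    rw [pow_add, h2, mul_sub, mul_smul_comm, mul_smul_comm, mul_one, ← pow_succ,
      Matrix.trace_sub, Matrix.trace_smul, Matrix.trace_smul, smul_eq_mul, smul_eq_mul]
  induction j using Nat.twoStepInduction with
  | zero => simp
  | one => simpa using ht
  | more n h1 h2 => rw [key, key, ht, hd, h1, h2]

theorem charpoly_pow_eq_of_charpoly_eq {V V' : Type} [AddCommGroup V] [Module k V]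
    [Module.Finite k V] [AddCommGroup V'] [Module k V'] [Module.Finite k V']
    (hV : Module.finrank k V = 2) (hV' : Module.finrank k V' = 2)
    {f : Module.End k V} {g : Module.End k V'} (h : f.charpoly = g.charpoly) (j : ℕ) :
    (f ^ j).charpoly = (g ^ j).charpoly := by
  let b := Module.finBasisOfFinrankEq k V hV
  let b' := Module.finBasisOfFinrankEq k V' hV'
  rw [← LinearMap.charpoly_toMatrix f b, ← LinearMap.charpoly_toMatrix g b'] at h
  rw [← LinearMap.charpoly_toMatrix (f ^ j) b, ← LinearMap.charpoly_toMatrix (g ^ j) b',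
    ← LinearMap.toMatrix_pow b f j, ← LinearMap.toMatrix_pow b' g j]
  have ht : (LinearMap.toMatrix b b f).trace = (LinearMap.toMatrix b' b' g).trace := by
    rw [Matrix.trace_eq_neg_charpoly_coeff, Matrix.trace_eq_neg_charpoly_coeff, h]
  have hd : (LinearMap.toMatrix b b f).det = (LinearMap.toMatrix b' b' g).det := by
    rw [Matrix.det_eq_sign_charpoly_coeff, Matrix.det_eq_sign_charpoly_coeff, h]
  rw [Matrix.charpoly_fin_two, Matrix.charpoly_fin_two, trace_pow_eq_of_charpoly_eq ht hd j,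
    Matrix.det_pow, Matrix.det_pow, hd]

end Power

/-- Two residual representations with the same Frobenius characteristic polynomials outside a
finite set have the same characteristic polynomial at every element. -/
theorem charpoly_eq_of_frobenius (hD : FrobeniusDensity) {k : Type} [Field k]
    (ρ ρ' : ResidualGaloisRep k) (S : Finset ℕ)
    (h : ∀ ℓ : ℕ, ℓ.Prime → ℓ ∉ S → ∀ A : ValuationSubring ℚbar, A.LiesOverPrime ℓ →
      ∀ τ : Γℚ, A.IsFrobeniusAt τ ℓ → (ρ.ρ τ).charpoly = (ρ'.ρ τ).charpoly)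
    (σ : Γℚ) : (ρ.ρ σ).charpoly = (ρ'.ρ σ).charpoly := by
  obtain ⟨L, hL, hρ⟩ := ρ.factorsThroughFiniteLevel
  obtain ⟨L', hL', hρ'⟩ := ρ'.factorsThroughFiniteLevel
  have hLL : FiniteDimensional ℚ ↥(L ⊔ L') := by
    have := hL
    have := hL'
    exact IntermediateField.finiteDimensional_sup L L'
  obtain ⟨ℓ, hℓ, hℓS, A, hA, τ, hτ, j, hj⟩ := hD (L ⊔ L') hLL σ S
  have e : ∀ (r : ResidualGaloisRep k) (K : IntermediateField ℚ ℚbar), K ≤ L ⊔ L' →
      (∀ g : Γℚ, (∀ x ∈ K, g x = x) → r.ρ g = 1) → r.ρ σ = r.ρ τ ^ j := by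
    intro r K hK hr
    have h1 : r.ρ (σ⁻¹ * τ ^ j) = 1 := by
      refine hr _ fun x hx => ?_
      rw [AlgEquiv.mul_apply, hj x (hK hx)]
      exact σ.symm_apply_apply x
    rw [← map_pow]
    conv_rhs => rw [← mul_inv_cancel_left σ (τ ^ j), map_mul, h1, mul_one]
  rw [e ρ L le_sup_left hρ, e ρ' L' le_sup_right hρ']
  exact charpoly_pow_eq_of_charpoly_eq ρ.finrank_eq ρ'.finrank_eq (h ℓ hℓ hℓS A hA τ hτ) j

/-- Congruence at almost all primes gives congruence at every good prime not dividing `M * p`. -/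
theorem isResiduallyModularOfLevel_of_cofinite (hAtt : ResidualAttachment)
    (hD : FrobeniusDensity) {p : ℕ} [Fact p.Prime] {W : WeierstrassCurve ℤ} (hΔ : W.Δ ≠ 0)
    (hcard : Nat.card (Submodule.torsionBy ℤ
      ((W.map (Int.castRingHom ℚ))⁄(AlgebraicClosure ℚ)).Point p) = p ^ 2)
    (hker : GaloisFactorsThroughFiniteLevel
      (galoisRepModuleEnd (K := AlgebraicClosure ℚ) ℚ (W.map (Int.castRingHom ℚ)) p))
    (hE : EllipticFrobenius W p) {M : ℕ} (hM : M ≠ 0) (h : CofiniteResModular W p M) :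
    W.IsResiduallyModularOfLevel p M := by
  obtain ⟨f, 𝔪, hf, hmax, hp𝔪, S, hS⟩ := h
  have hp : p.Prime := Fact.out
  refine ⟨f, 𝔪, hf, hmax, hp𝔪, fun ℓ hℓ hgood hℓM hℓp => ?_⟩
  have : 𝔪.IsMaximal := hmax
  let : Field (integralClosure ℤ ℂ ⧸ 𝔪) := Ideal.Quotient.field 𝔪
  have : CharP (integralClosure ℤ ℂ ⧸ 𝔪) p := by
    have h0 : (p : integralClosure ℤ ℂ ⧸ 𝔪) = 0 := by
      rw [← map_natCast (Ideal.Quotient.mk 𝔪), Ideal.Quotient.eq_zero_iff_mem]
      exact hp𝔪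
    rcases (Nat.dvd_prime hp).mp (ringChar.dvd h0) with h1 | h1
    · exact absurd h1 CharP.ringChar_ne_one
    · exact ringChar.eq_iff.mp h1
  let : Algebra (ZMod p) (integralClosure ℤ ℂ ⧸ 𝔪) := ZMod.algebra _ p
  let φ : integralClosure ℤ ℂ →+* integralClosure ℤ ℂ ⧸ 𝔪 := Ideal.Quotient.mk 𝔪
  obtain ⟨ρ, hρ, -⟩ := hAtt hf hp φ
  let ρW := ((W.map (Int.castRingHom ℚ)).residualGaloisRepOf p hcard hker).baseChange
    (integralClosure ℤ ℂ ⧸ 𝔪)
  have hcast : ∀ r : ℕ, r.Prime → r ≠ p → (r : integralClosure ℤ ℂ ⧸ 𝔪) ≠ 0 := by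
    intro r hr hrp h0
    rw [CharP.cast_eq_zero_iff _ p] at h0
    exact hrp ((Nat.prime_dvd_prime_iff_eq hp hr).mp h0).symm
  have hW : ∀ r : ℕ, r.Prime → W.IsGoodPrimeFor r → r ≠ p → ∀ A : ValuationSubring ℚbar,
      A.LiesOverPrime r → ∀ τ : Γℚ, A.IsFrobeniusAt τ r →
        (ρW.ρ τ).charpoly = X ^ 2 - C (φ (W.apOfModel r : ℤ)) * X +
          C ((r : integralClosure ℤ ℂ ⧸ 𝔪)) := by
    intro r hr hg hrp A hA τ hτ
    show ((((W.map (Int.castRingHom ℚ)).residualGaloisRepOf p hcard hker).ρ τ).baseChange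
      (integralClosure ℤ ℂ ⧸ 𝔪)).charpoly = _
    rw [LinearMap.charpoly_baseChange, hE hcard hker r hr hg hrp A hA τ hτ]
    simp
  let T : Finset ℕ := S ∪ M.primeFactors ∪ {p} ∪ W.Δ.natAbs.primeFactors
  have heq := charpoly_eq_of_frobenius hD ρ ρW T ?_
  · obtain ⟨A, τ, hA, hτ⟩ := Frobenius.exists_place_isFrobeniusAt hℓ
    obtain ⟨a, ha, hcp⟩ := hρ ℓ hℓ hℓM (hcast ℓ hℓ hℓp) A hA τ hτ
    refine ⟨a, ha, Ideal.Quotient.eq.mp ?_⟩
    have h1 := congrArg (fun P : (integralClosure ℤ ℂ ⧸ 𝔪)[X] => P.coeff 1)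
      ((hcp.symm.trans (heq τ)).trans (hW ℓ hℓ hgood hℓp A hA τ hτ))
    simpa [φ, coeff_X_pow] using h1
  · intro r hr hrT A hA τ hτ
    simp only [T, Finset.mem_union, Finset.mem_singleton, Nat.mem_primeFactors, not_or] at hrT
    obtain ⟨⟨⟨hrS, hrM⟩, hrp⟩, hrΔ⟩ := hrT
    have hg : W.IsGoodPrimeFor r := fun hd =>
      hrΔ ⟨hr, Int.natCast_dvd.mp hd, Int.natAbs_ne_zero.mpr hΔ⟩
    have hrM' : ¬ r ∣ M := fun hd => hrM ⟨hr, hd, hM⟩
    obtain ⟨a, ha, hcp⟩ := hρ r hr hrM' (hcast r hr hrp) A hA τ hτ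
    obtain ⟨b, hb, hbm⟩ := hS r hr hrS
    have hab : a = b := Subtype.ext (ha.trans hb.symm)
    have hφ : φ a = φ (W.apOfModel r : ℤ) := by
      rw [hab]; exact Ideal.Quotient.eq.mpr hbm
    rw [hcp, hW r hr hg hrp A hA τ hτ, hφ]

end Fermat.Agent.LevelLowering
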