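import Fermat.Agent.LevelLowering.Upgrade
import Fermat.Agent.Newforms.Main

/-!
# Raising the level of a congruence

`CofiniteResModular W p d` only asks for a congruence at almost all primes, so stabilisation of
eigenforms raises the level from `d` to any squarefree multiple of `d`.
-/

set_option autoImplicit false

noncomputable section

open WeierstrassCurve WeierstrassCurve.Affine WeierstrassCurve.Affine.Point

namespace Fermat.Agent.LevelLowering

/-- A congruence at level `d` gives one at level `d r`, by stabilisation at the new prime `r`. -/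
theorem CofiniteResModular.mul_prime {W : WeierstrassCurve ℤ} {p d r : ℕ}
    (hd : 0 < d) (hr : r.Prime) (h : CofiniteResModular W p d) :
    CofiniteResModular W p (d * r) := by
  obtain ⟨f, 𝔪, hf, hmax, hp𝔪, S, hS⟩ := h
  have : NeZero d := ⟨hd.ne'⟩
  obtain ⟨g, hg, hgf⟩ := Newforms.exists_eigenform_prime_mul hr f hf
  rw [Nat.mul_comm d r]
  refine ⟨g, 𝔪, hg, hmax, hp𝔪, insert r S, fun ℓ hℓ hℓS => ?_⟩
  rw [Finset.mem_insert, not_or] at hℓS
  rw [hgf ℓ hℓ hℓS.1]
  exact hS ℓ hℓ hℓS.2

/-- The level can be raised inside squarefree levels. -/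
theorem cofiniteResModular_of_dvd {W : WeierstrassCurve ℤ} {p d M : ℕ} (hM : Squarefree M)
    (hd : d ∣ M) (h : CofiniteResModular W p d) : CofiniteResModular W p M := by
  have key : ∀ n d : ℕ, Squarefree (d * n) → CofiniteResModular W p d →
      CofiniteResModular W p (d * n) := by
    intro n
    induction n using Nat.strong_induction_on with
    | _ n ih =>
      intro d hsq hd
      rcases eq_or_ne n 1 with rfl | hn1
      · rwa [mul_one]
      obtain ⟨r, hr, m, rfl⟩ := Nat.exists_prime_and_dvd hn1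
      have hne : d * (r * m) ≠ 0 := hsq.ne_zero
      have hd0 : 0 < d := Nat.pos_of_ne_zero (left_ne_zero_of_mul hne)
      have hm0 : 0 < m := Nat.pos_of_ne_zero (right_ne_zero_of_mul (right_ne_zero_of_mul hne))
      have hsq' : Squarefree (d * r * m) := by rwa [mul_assoc]
      have := ih m (lt_mul_of_one_lt_left hm0 hr.one_lt) (d * r) hsq'
        (hd.mul_prime hd0 hr)
      rwa [mul_assoc] at this
  obtain ⟨n, rfl⟩ := hd
  exact key n d hM h

/-- Residual modularity of level `M` is a congruence at almost all primes at level `M`. -/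
theorem cofiniteResModular_of_isResiduallyModularOfLevel {W : WeierstrassCurve ℤ} (hΔ : W.Δ ≠ 0)
    {p M : ℕ} (hM : M ≠ 0) (h : W.IsResiduallyModularOfLevel p M) : CofiniteResModular W p M := by
  obtain ⟨f, 𝔪, hf, hmax, hp𝔪, hc⟩ := h
  refine ⟨f, 𝔪, hf, hmax, hp𝔪, M.primeFactors ∪ {p} ∪ W.Δ.natAbs.primeFactors,
    fun ℓ hℓ hS => ?_⟩
  simp only [Finset.mem_union, Finset.mem_singleton, Nat.mem_primeFactors, not_or] at hS
  exact hc ℓ hℓ (fun hd => hS.2 ⟨hℓ, Int.natCast_dvd.mp hd, Int.natAbs_ne_zero.mpr hΔ⟩)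
    (fun hd => hS.1.1 ⟨hℓ, hd, hM⟩) hS.1.2

end Fermat.Agent.LevelLowering
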