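import Fermat.Prelude.Def_FreyPackage_IsConductorLevel
import Fermat.Agent.LevelLowering.Core
import Fermat.Agent.FreyModel.Basic
import Fermat.Prelude.Def_FLTPrelim_Ramification
import Fermat.Agent.LevelTwo.FreyBridge
import Mathlib.Tactic
import Mathlib.NumberTheory.Padics.PadicVal.Basic
import Fermat.Prelude.Def_FLTPrelim_ModularRep
import Fermat.Prelude.Def_WeierstrassCurve_PeuRamifiee
import Fermat.Agent.VariableChangePoints.Basic
import Fermat.Agent.LevelLowering.Upgrade
import Fermat.Agent.Newforms.Main
import Fermat.Agent.SmallLevel.Vanishing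

/-!
# Level lowering for the Frey curve: the three lowering steps and their assembly

* `MazurAway P`: an odd `q ≠ p` can be removed from a squarefree level, unless `q ≡ 1 (mod p)` and
  Frobenius at `q` is a scalar on the `p`-torsion;
* `MazurAtP P`: `p` can be removed from a squarefree level;
* `IharaAvoidance P`: all the remaining odd primes can be removed from `2 * ∏ q` at once.

Together they show that the Frey curve is congruent to no eigenform of squarefree level, which
gives Ribet's theorem for the Frey curve by ex falso.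
-/

set_option autoImplicit false

noncomputable section

open WeierstrassCurve WeierstrassCurve.Affine.Point

namespace Fermat.Agent.LevelLowering

/-- The Frey curve is congruent modulo a prime over `p` to an eigenform of level `M`, at all but
finitely many primes. -/
abbrev FreyModular (P : FreyPackage) (M : ℕ) : Prop :=
  CofiniteResModular P.freyCurveInt P.p M

/-- Every Frobenius at every place over `q` acts on `E[p]` by a scalar. -/
def FrobeniusScalar (P : FreyPackage) (q : ℕ) : Prop :=
  ∀ A : ValuationSubring (AlgebraicClosure ℚ), A.LiesOverPrime q →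
    ∀ σ : AlgebraicClosure ℚ ≃ₐ[ℚ] AlgebraicClosure ℚ, A.IsFrobeniusAt σ q →
      ∃ c : ZMod P.p,
        galoisRepModuleEnd (K := AlgebraicClosure ℚ) ℚ P.freyCurve P.p σ = c • 1

/-- A prime that Mazur's principle does not remove. -/
def IsExceptionalPrime (P : FreyPackage) (q : ℕ) : Prop :=
  q.Prime ∧ q ≠ 2 ∧ q ≠ P.p ∧ (q : ZMod P.p) = 1 ∧ FrobeniusScalar P q

/-- Mazur's principle at an odd prime `q ≠ p`. -/
def MazurAway (P : FreyPackage) : Prop :=
  GaloisRepIsIrreducible (K := AlgebraicClosure ℚ) ℚ P.freyCurve P.p →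
  ∀ M q : ℕ, Squarefree (q * M) → q.Prime → q ≠ 2 → q ≠ P.p → FreyModular P (q * M) →
    FreyModular P M ∨ ((q : ZMod P.p) = 1 ∧ FrobeniusScalar P q)

/-- Mazur's principle at `p`, for a curve with bad reduction at `p`. -/
def MazurAtP (P : FreyPackage) : Prop :=
  GaloisRepIsIrreducible (K := AlgebraicClosure ℚ) ℚ P.freyCurve P.p →
  (P.p : ℤ) ∣ P.a * P.b * P.c →
  ∀ M : ℕ, Squarefree (P.p * M) → FreyModular P (P.p * M) → FreyModular P M

/-- All exceptional primes are removed at once. -/
def IharaAvoidance (P : FreyPackage) : Prop :=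
  GaloisRepIsIrreducible (K := AlgebraicClosure ℚ) ℚ P.freyCurve P.p →
  ∀ Q : Finset ℕ, (∀ q ∈ Q, IsExceptionalPrime P q) → FreyModular P (2 * ∏ q ∈ Q, q) →
    FreyModular P 2

theorem not_freyModular_two (P : FreyPackage) : ¬ FreyModular P 2 := by
  rintro ⟨f, -, hf, -⟩
  exact hf.ne_zero (SmallLevel.cuspForm_eq_zero_of_index_lt (N := 2) (k := 2)
    (SmallLevel.Gamma_le_Gamma0 2)
    (by have := SmallLevel.index_Gamma0_two_le; omega) f)

/-- The three steps show that the Frey curve is congruent to no eigenform of squarefree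
level. -/
theorem not_freyModular (P : FreyPackage)
    (hirr : GaloisRepIsIrreducible (K := AlgebraicClosure ℚ) ℚ P.freyCurve P.p)
    (hI : MazurAway P) (hP : MazurAtP P) (hII : IharaAvoidance P) :
    ∀ N : ℕ, Squarefree N → (P.p ∣ N → (P.p : ℤ) ∣ P.a * P.b * P.c) → ¬ FreyModular P N := by
  intro N
  induction N using Nat.strong_induction_on with
  | _ N ih =>
    intro hsq hdvd hmod
    have hlt : ∀ r M : ℕ, r.Prime → N = r * M → M < N ∧ Squarefree M := fun r M hr hN => by
      subst hN
      exact ⟨lt_mul_of_one_lt_left (Nat.pos_of_ne_zero (right_ne_zero_of_mul hsq.ne_zero))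
        hr.one_lt, hsq.squarefree_of_dvd (dvd_mul_left M r)⟩
    by_cases hp : P.p ∣ N
    · obtain ⟨M, rfl⟩ := hp
      exact ih M (hlt _ M P.pp rfl).1 (hlt _ M P.pp rfl).2 (fun _ => hdvd (dvd_mul_right _ M))
        (hP hirr (hdvd (dvd_mul_right _ M)) M hsq hmod)
    by_cases hex : ∀ q ∈ N.primeFactors.erase 2, IsExceptionalPrime P q
    · refine not_freyModular_two P (hII hirr _ hex ?_)
      have hprod : ∏ q ∈ N.primeFactors, q = N := Nat.prod_primeFactors_of_squarefree hsq
      by_cases h2 : 2 ∈ N.primeFactors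
      · rw [Finset.mul_prod_erase N.primeFactors (fun q => q) h2, hprod]
        exact hmod
      · rw [Finset.erase_eq_of_notMem h2, hprod]
        have h2' : ¬ 2 ∣ N := fun h =>
          h2 (Nat.mem_primeFactors.mpr ⟨Nat.prime_two, h, hsq.ne_zero⟩)
        refine cofiniteResModular_of_dvd ?_ (dvd_mul_left N 2) hmod
        exact (Nat.squarefree_mul ((Nat.Prime.coprime_iff_not_dvd Nat.prime_two).mpr h2')).mpr
          ⟨Nat.prime_two.squarefree, hsq⟩
    · push Not at hex
      obtain ⟨q, hq, hne⟩ := hex
      rw [Finset.mem_erase, Nat.mem_primeFactors] at hq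
      obtain ⟨hq2, hqp, ⟨M, rfl⟩, -⟩ := hq
      have hqP : q ≠ P.p := fun e => hp (e ▸ dvd_mul_right q M)
      rcases hI hirr M q hsq hqp hq2 hqP hmod with h | ⟨h1, h2⟩
      · exact ih M (hlt q M hqp rfl).1 (hlt q M hqp rfl).2
          (fun h' => hdvd (h'.trans (dvd_mul_left M q))) h
      · exact hne ⟨hqp, hq2, hqP, h1, h2⟩

/-- Modularity of the residual representation gives Frey modularity at the same level. -/
theorem freyModular_of_modularRepOfLevel (P : FreyPackage) {N : ℕ} (hN : N ≠ 0)
    (h : P.ModularRepOfLevel N) : FreyModular P N := by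
  obtain ⟨f, 𝔪, D, hD, hf, hmax, hp, hc⟩ := LevelTwo.congruence_of_modularRepOfLevel P h
  refine ⟨f, 𝔪, hf, hmax, hp, D.natAbs.primeFactors ∪ N.primeFactors ∪ {P.p}, fun ℓ hℓ hS => ?_⟩
  simp only [Finset.mem_union, Finset.mem_singleton, Nat.mem_primeFactors, not_or] at hS
  exact (hc ℓ hℓ (fun hd => hS.1.1 ⟨hℓ, Int.natCast_dvd.mp hd, Int.natAbs_ne_zero.mpr hD⟩)
    (fun hd => hS.1.2 ⟨hℓ, hd, hN⟩) hS.2).2

/-- No conductor level carries the Frey representation; Ribet's theorem for the Frey curve follows
by ex falso. -/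
theorem not_modularRepOfLevel (P : FreyPackage)
    (hirr : GaloisRepIsIrreducible (K := AlgebraicClosure ℚ) ℚ P.freyCurve P.p)
    (hI : MazurAway P) (hP : MazurAtP P) (hII : IharaAvoidance P) {N : ℕ}
    (hcond : P.IsConductorLevel N) : ¬ P.ModularRepOfLevel N := fun h =>
  not_freyModular P hirr hI hP hII N hcond.squarefree (fun h => hcond.p_dvd_abc h)
    (freyModular_of_modularRepOfLevel P hcond.pos.ne' h)

end Fermat.Agent.LevelLowering
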