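import Fermat.Agent.LevelLowering.Core
import Fermat.Prelude.Def_WeierstrassCurve_PeuRamifiee

/-!
# Level lowering for a semistable curve: the three lowering steps and their assembly

The steps are stated as predicates on the curve and the prime:
* `RemoveAway W p`: a prime `q ≠ p` at which `E[p]` is unramified can be removed from a squarefree
  level, unless `q ≡ 1 (mod p)` and Frobenius is scalar;
* `RemoveAtP W p`: `p` can be removed when `E[p]` is finite at `p`;
* `RemoveExceptional W p`: all remaining exceptional primes are removed at once.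
-/

set_option autoImplicit false

noncomputable section

open WeierstrassCurve WeierstrassCurve.Affine WeierstrassCurve.Affine.Point

namespace Fermat.Agent.LevelLowering

variable (W : WeierstrassCurve ℤ) (p : ℕ)

/-- Inertia at `q` acts trivially on `E[p]`. -/
def TorsionUnramified (q : ℕ) : Prop :=
  ∀ A : ValuationSubring (AlgebraicClosure ℚ), A.LiesOverPrime q →
    ∀ σ ∈ A.inertiaSubgroupIn ℚ,
      galoisRepModuleEnd (K := AlgebraicClosure ℚ) ℚ (W.map (Int.castRingHom ℚ)) p σ = 1

/-- Every Frobenius at every place over `q` acts on `E[p]` by a scalar. -/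
def TorsionFrobeniusScalar (q : ℕ) : Prop :=
  ∀ A : ValuationSubring (AlgebraicClosure ℚ), A.LiesOverPrime q →
    ∀ σ : AlgebraicClosure ℚ ≃ₐ[ℚ] AlgebraicClosure ℚ, A.IsFrobeniusAt σ q →
      ∃ c : ZMod p,
        galoisRepModuleEnd (K := AlgebraicClosure ℚ) ℚ (W.map (Int.castRingHom ℚ)) p σ = c • 1

/-- A prime that Mazur's principle does not remove. -/
def IsExceptional (q : ℕ) : Prop :=
  q.Prime ∧ q ≠ p ∧ (q : ZMod p) = 1 ∧ TorsionUnramified W p q ∧ TorsionFrobeniusScalar W p q

/-- `E[p]` is finite at `p`: good reduction, or `p` divides the valuation of the discriminant. -/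
def TorsionFiniteAt : Prop :=
  W.IsGoodPrimeFor p ∨ (W.map (Int.castRingHom ℚ)).IsPeuRamifieeAt p p

/-- Mazur's principle at `q ≠ p`. -/
def RemoveAway : Prop :=
  W.ModRepIsIrreducible p → ∀ M q : ℕ, Squarefree (q * M) → q.Prime → q ≠ p →
    TorsionUnramified W p q → CofiniteResModular W p (q * M) →
    CofiniteResModular W p M ∨ ((q : ZMod p) = 1 ∧ TorsionFrobeniusScalar W p q)

/-- Mazur's principle at `p`. -/
def RemoveAtP : Prop :=
  W.ModRepIsIrreducible p → TorsionFiniteAt W p → ∀ M : ℕ, Squarefree (p * M) →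
    CofiniteResModular W p (p * M) → CofiniteResModular W p M

/-- The exceptional primes are removed from `B * ∏ q` at once, where `E[p]` is
ramified at the primes of `B` other than `p`, and `p ∣ B` only if `E[p]` is not finite at `p`. -/
def RemoveExceptional : Prop :=
  W.ModRepIsIrreducible p → ∀ (B : ℕ) (Q : Finset ℕ), Squarefree B →
    (∀ q ∈ B.primeFactors, q ≠ p → ¬ TorsionUnramified W p q) →
    (p ∣ B → ¬ TorsionFiniteAt W p) →
    (∀ q ∈ Q, IsExceptional W p q ∧ ¬ q ∣ B) →
    CofiniteResModular W p (B * ∏ q ∈ Q, q) → CofiniteResModular W p B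

variable {W p}

/-- A divisor of the level with only necessary primes. -/
def IsMinimalLevel (W : WeierstrassCurve ℤ) (p B : ℕ) : Prop :=
  Squarefree B ∧ (∀ q ∈ B.primeFactors, q ≠ p → ¬ TorsionUnramified W p q) ∧
    (p ∣ B → ¬ TorsionFiniteAt W p)

/-- The three steps lower a squarefree level to a minimal one. -/
theorem exists_minimalLevel (hp : p.Prime) (hirr : W.ModRepIsIrreducible p)
    (hI : RemoveAway W p) (hP : RemoveAtP W p) (hII : RemoveExceptional W p) :
    ∀ N : ℕ, Squarefree N → CofiniteResModular W p N →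
      ∃ B, B ∣ N ∧ IsMinimalLevel W p B ∧ CofiniteResModular W p B := by
  classical
  intro N
  induction N using Nat.strong_induction_on with
  | _ N ih =>
    intro hsq hmod
    have step : ∀ r M : ℕ, r.Prime → N = r * M → CofiniteResModular W p M →
        ∃ B, B ∣ N ∧ IsMinimalLevel W p B ∧ CofiniteResModular W p B := by
      intro r M hr hN hM
      subst hN
      obtain ⟨B, h1, h2, h3⟩ := ih M
        (lt_mul_of_one_lt_left (Nat.pos_of_ne_zero (right_ne_zero_of_mul hsq.ne_zero)) hr.one_lt)
        (hsq.squarefree_of_dvd (dvd_mul_left M r)) hM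
      exact ⟨B, h1.trans (dvd_mul_left M r), h2, h3⟩
    by_cases hpN : p ∣ N ∧ TorsionFiniteAt W p
    · obtain ⟨⟨M, rfl⟩, hfin⟩ := hpN
      exact step p M hp rfl (hP hirr hfin M hsq hmod)
    set Q := N.primeFactors.filter fun q => q ≠ p ∧ TorsionUnramified W p q with hQ
    by_cases hex : ∀ q ∈ Q, IsExceptional W p q
    · set B := ∏ q ∈ N.primeFactors \ Q, q with hB
      have hsub : Q ⊆ N.primeFactors := Finset.filter_subset _ _
      have hprod : B * ∏ q ∈ Q, q = N := by
        rw [hB, Finset.prod_sdiff hsub, Nat.prod_primeFactors_of_squarefree hsq]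
      have hBdvd : B ∣ N := Dvd.intro _ hprod
      have hBsq : Squarefree B := hsq.squarefree_of_dvd hBdvd
      have hmemB : ∀ q, q ∈ B.primeFactors → q ∈ N.primeFactors \ Q := by
        intro q hq
        rw [hB, Nat.primeFactors_prod fun x hx =>
          Nat.prime_of_mem_primeFactors (Finset.mem_sdiff.mp hx).1] at hq
        exact hq
      have hBram : ∀ q ∈ B.primeFactors, q ≠ p → ¬ TorsionUnramified W p q := fun q hq hqp hu =>
        (Finset.mem_sdiff.mp (hmemB q hq)).2
          (Finset.mem_filter.mpr ⟨(Finset.mem_sdiff.mp (hmemB q hq)).1, hqp, hu⟩)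
      have hBp : p ∣ B → ¬ TorsionFiniteAt W p := fun h hfin => hpN ⟨h.trans hBdvd, hfin⟩
      refine ⟨B, hBdvd, ⟨hBsq, hBram, hBp⟩, hII hirr B Q hBsq hBram hBp (fun q hq => ⟨hex q hq,
        fun hd => (Finset.mem_sdiff.mp (hmemB q (Nat.mem_primeFactors.mpr
          ⟨Nat.prime_of_mem_primeFactors (hsub hq), hd, hBsq.ne_zero⟩))).2 hq⟩) ?_⟩
      rwa [hprod]
    · push Not at hex
      obtain ⟨q, hq, hne⟩ := hex
      rw [hQ, Finset.mem_filter, Nat.mem_primeFactors] at hq
      obtain ⟨⟨hqprime, ⟨M, rfl⟩, -⟩, hqp, hunr⟩ := hq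
      rcases hI hirr M q hsq hqprime hqp hunr hmod with h | ⟨h1, h2⟩
      · exact step q M hqprime rfl h
      · exact absurd ⟨hqprime, hqp, h1, hunr, h2⟩ hne

/-- An unramified prime can be removed. -/
theorem cofiniteResModular_div_of_targets (hp : p.Prime) (hirr : W.ModRepIsIrreducible p)
    (hI : RemoveAway W p) (hP : RemoveAtP W p) (hII : RemoveExceptional W p) {M q : ℕ}
    (hM : Squarefree M) (hq : q.Prime) (hqM : q ∣ M)
    (hq' : if q = p then TorsionFiniteAt W p else TorsionUnramified W p q)
    (h : CofiniteResModular W p M) : CofiniteResModular W p (M / q) := by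
  obtain ⟨B, hBM, ⟨-, hB1, hB2⟩, hB⟩ := exists_minimalLevel hp hirr hI hP hII M hM h
  have hqB : ¬ q ∣ B := fun hd => by
    by_cases e : q = p
    · subst e
      rw [if_pos rfl] at hq'
      exact hB2 hd hq'
    · rw [if_neg e] at hq'
      exact hB1 q (Nat.mem_primeFactors.mpr ⟨hq, hd, ne_zero_of_dvd_ne_zero hM.ne_zero hBM⟩) e hq'
  obtain ⟨N, rfl⟩ := hqM
  rw [Nat.mul_div_cancel_left N hq.pos]
  exact cofiniteResModular_of_dvd (hM.squarefree_of_dvd (dvd_mul_left N q))
    (((hq.coprime_iff_not_dvd.mpr hqB).symm).dvd_of_dvd_mul_left hBM) hB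

end Fermat.Agent.LevelLowering
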