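import Fermat.Agent.AtP.RemoveAtPFinal
import Fermat.Agent.LevelLowering.Away.KummerStep
import Fermat.Agent.LevelLowering.Away.RemoveAwayOfKummer
import Fermat.Agent.LevelLowering.Avoid.Final

/-!
# Level lowering for semistable curves at every odd prime

Mazur's principle away from `p` and at `p`, Ihara avoidance, and with them Ribet's lowering: a
prime `q ≠ p` at which `E[p]` is unramified leaves a squarefree level.
-/

set_option autoImplicit false

noncomputable section

open WeierstrassCurve WeierstrassCurve.Affine WeierstrassCurve.Affine.Point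

namespace Fermat.Agent.LevelLowering.Semistable

variable {W : WeierstrassCurve ℤ} {p : ℕ} [Fact p.Prime]

/-- Mazur's principle at an odd `p` from Mazur's principle away from `p`: for `p = 3` and an odd
level the differential only lifts to level `2 M`, and the prime `2` is removed again. -/
theorem removeAtP (hI : RemoveAway W p) (hΔ : W.Δ ≠ 0) (hW : W.IsSemistableModel)
    (hp2 : p ≠ 2) : RemoveAtP W p := by
  intro hirr hfin M hsq hmod
  have hpM : ¬ p ∣ M := fun hd => (Fact.out : p.Prime).ne_one (Nat.isUnit_iff.mp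
    (hsq p (Nat.mul_dvd_mul_left p hd)))
  have hM : Squarefree M := hsq.squarefree_of_dvd (dvd_mul_left M p)
  rcases AtP.cofiniteResModular_of_peu (AtP.supersingularExclusion W hΔ p hp2) hΔ hp2
    (hW p Fact.out) hirr (AtP.dvd_padicValInt_of_torsionFiniteAt hfin)
    (Nat.pos_of_ne_zero hM.ne_zero) hpM hmod with h | ⟨rfl, hodd, h2⟩
  · exact h
  · have h2M : ¬ 2 ∣ M := fun hd => Nat.not_even_iff_odd.2 hodd (even_iff_two_dvd.2 hd)
    have hsq2 : Squarefree (2 * M) := by
      rw [Nat.squarefree_mul ((Nat.Prime.coprime_iff_not_dvd Nat.prime_two).2 h2M)]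
      exact ⟨Nat.prime_two.squarefree, hM⟩
    have h2p : ¬ 2 ∣ 3 * M := fun hd =>
      (Nat.prime_two.dvd_mul.mp hd).elim (by decide) h2M
    refine (hI hirr M 2 hsq2 Nat.prime_two (by decide) ?_ h2).resolve_right fun h => ?_
    · exact Away.torsionUnramified_of_not_dvd hΔ hW (by decide) hirr hsq.ne_zero Nat.prime_two
        (by decide) h2p hmod
    · exact absurd h.1 (by decide)

/-- The three lowering steps for a semistable curve at an odd prime. -/
theorem loweringSteps (hΔ : W.Δ ≠ 0) (hW : W.IsSemistableModel) (hp2 : p ≠ 2) :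
    RemoveAway W p ∧ RemoveAtP W p ∧ RemoveExceptional W p :=
  have hI : RemoveAway W p := Away.removeAway_of_kummerStep Away.kummerStep hΔ hW hp2
  ⟨hI, removeAtP hI hΔ hW hp2, Avoid.removeExceptional_semistable W p hΔ hW hp2⟩

/-- **Ribet's lowering**: a prime `q ≠ p` at which `E[p]` is unramified can be removed from a
squarefree level. -/
theorem isResiduallyModularOfLevel_div (hp2 : p ≠ 2) (hΔ : W.Δ ≠ 0) (hW : W.IsSemistableModel)
    (hcard : Nat.card (Submodule.torsionBy ℤ
      ((W.map (Int.castRingHom ℚ))⁄(AlgebraicClosure ℚ)).Point p) = p ^ 2)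
    (hker : GaloisFactorsThroughFiniteLevel
      (galoisRepModuleEnd (K := AlgebraicClosure ℚ) ℚ (W.map (Int.castRingHom ℚ)) p))
    (hirr : W.ModRepIsIrreducible p) (M q : ℕ) (hq : q.Prime) (hqp : q ≠ p) (hqM : q ∣ M)
    (hM : Squarefree M)
    (hunr : ((W.map (Int.castRingHom ℚ)).residualGaloisRepOf p hcard hker).IsUnramifiedAt q)
    (hres : W.IsResiduallyModularOfLevel p M) : W.IsResiduallyModularOfLevel p (M / q) := by
  obtain ⟨hI, hP, hII⟩ := loweringSteps (p := p) hΔ hW hp2
  refine Lifting.isResiduallyModularOfLevel_of_cofinite hΔ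
    (hM.squarefree_of_dvd (Nat.div_dvd_of_dvd hqM)).ne_zero ?_
  exact cofiniteResModular_div_of_targets Fact.out hirr hI hP hII hM hq hqM
    (by rw [if_neg hqp]; exact hunr)
    (cofiniteResModular_of_isResiduallyModularOfLevel hΔ hM.ne_zero hres)

/-- The squarefree input of modularity lifting, the case `p = 3, 5` of Ribet's lowering. -/
theorem levelLoweringSqf_holds : Lifting.LevelLoweringSqf :=
  fun _ _ hp _ hΔ hW hcard hker hirr M q hq hqp hqM _ hM hunr hres =>
    isResiduallyModularOfLevel_div (by omega) hΔ hW hcard hker hirr M q hq hqp hqM hM hunr hres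

end Fermat.Agent.LevelLowering.Semistable
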